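/-
Row 37 HARD (Ihara avoidance), leaf GAL, item (D) "TYPE clause": the algebra.   (helper419)

`Σ, Φ` 2×2 matrices over a domain `V` of characteristic zero, `det Σ = 1`, `det Φ ≠ 0`,
`Φ Σ = Σ^q Φ`, `Σ ≡ 1` modulo a proper ideal `m ∋ p` (`p` odd), `q = p^K n' + 1`, `p ∤ n'`,
`K ≥ 1`, `ζ` a primitive `p^K`-th root of unity, `tr Σ ≠ 2`.  Then (helper474, `TypePsi`)
the characteristic polynomial of `Σ` is `(X - z)(X - z')` with `z = ζ^j ≠ z' = ζ^(-j)`, hence

* `Σ ^ (p^K) = 1` (`pow_eq_one_of_charpoly_h419`), so `Φ Σ = Σ Φ` (`commute_of_conj_h419`);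
* in traceless coordinates `u` of `Σ`, `w` of `Φ`:
  `4 Q(u) = (z - z')²` and all minors `w_a u_b - w_b u_a` vanish (`type_algebra_h419`).

Mathlib + `S38/IA/H474/TypePsi.lean` only.  All proofs complete.
-/
import Fermat.Agent.S38.IA.H474.TypePsi

set_option autoImplicit false
set_option linter.style.haveILetI false
set_option linter.unusedSectionVars false

namespace Fermat.Agent.S38.H419

open Matrix Polynomial

section Pow

variable {V : Type*} [CommRing V] [IsDomain V]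

/-- A 2×2 matrix over a domain with characteristic polynomial `(X - z)(X - z')`, `z ≠ z'`,
`z^N = z'^N = 1`, satisfies `M^N = 1`. -/
theorem pow_eq_one_of_charpoly_h419 (M : Matrix (Fin 2) (Fin 2) V) (z z' : V) (hne : z ≠ z')
    (N : ℕ) (hz : z ^ N = 1) (hz' : z' ^ N = 1)
    (hchar : M.charpoly = (X - C z) * (X - C z')) : M ^ N = 1 := by
  have h1 : (X - C z) ∣ (X ^ N - 1 : V[X]) := by
    rw [Polynomial.dvd_iff_isRoot, Polynomial.IsRoot.def]
    simp only [eval_sub, eval_pow, eval_X, eval_one, hz, sub_self]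
  obtain ⟨h, hh⟩ := h1
  have h2 : h.IsRoot z' := by
    have e := congrArg (Polynomial.eval z') hh
    simp only [eval_sub, eval_pow, eval_X, eval_one, eval_mul, eval_C, hz', sub_self] at e
    rcases mul_eq_zero.mp e.symm with h0 | h0
    · exact absurd (sub_eq_zero.mp h0).symm hne
    · exact h0
  obtain ⟨g, hg⟩ := Polynomial.dvd_iff_isRoot.mpr h2
  have h3 : (X ^ N - 1 : V[X]) = M.charpoly * g := by
    rw [hchar, hh, hg]
    ring
  have h4 := congrArg (Polynomial.aeval M) h3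
  rw [map_mul, Matrix.aeval_self_charpoly, zero_mul, map_sub, map_pow, Polynomial.aeval_X,
    map_one] at h4
  exact sub_eq_zero.mp h4

end Pow

section Comm

variable {B : Type*} [CommRing B]

/-- If `Σ^(N) = 1` and `N ∣ q - 1` (in the form `q = N n' + 1`), the tame relation
`Φ Σ = Σ^q Φ` says that `Φ` and `Σ` commute. -/
theorem commute_of_conj_h419 {q N n' : ℕ} (hq : q = N * n' + 1)
    (Sg Φ : Matrix (Fin 2) (Fin 2) B) (hconj : Φ * Sg = Sg ^ q * Φ) (hpow : Sg ^ N = 1) :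
    Φ * Sg = Sg * Φ := by
  have h1 : Sg ^ q = Sg := by
    rw [hq, pow_succ, pow_mul, hpow, one_pow, one_mul]
  rw [hconj, h1]

/-- `4 Q(u) = tr² - 4 det` in traceless coordinates. -/
theorem four_mul_qform_h419 (M : Matrix (Fin 2) (Fin 2) B) (u : Fin 3 → B)
    (h0 : 2 * u 0 = M 0 0 - M 1 1) (h1 : u 1 = M 0 1) (h2 : u 2 = M 1 0) :
    4 * (u 0 ^ 2 + u 1 * u 2) = M.trace ^ 2 - 4 * M.det := by
  rw [Matrix.trace_fin_two, Matrix.det_fin_two, h1, h2]
  have e : 4 * u 0 ^ 2 = (2 * u 0) ^ 2 := by ring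
  have e' : 4 * (u 0 ^ 2 + M 0 1 * M 1 0) = 4 * u 0 ^ 2 + 4 * (M 0 1 * M 1 0) := by ring
  rw [e', e, h0]
  ring

/-- Commuting matrices have proportional traceless coordinates: twice every minor vanishes. -/
theorem two_mul_minor_h419 (M N : Matrix (Fin 2) (Fin 2) B) (u w : Fin 3 → B)
    (hu0 : 2 * u 0 = M 0 0 - M 1 1) (hu1 : u 1 = M 0 1) (hu2 : u 2 = M 1 0)
    (hw0 : 2 * w 0 = N 0 0 - N 1 1) (hw1 : w 1 = N 0 1) (hw2 : w 2 = N 1 0)
    (hcomm : N * M = M * N) (a b : Fin 3) : 2 * (w a * u b - w b * u a) = 0 := by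
  have c00 : N 0 0 * M 0 0 + N 0 1 * M 1 0 = M 0 0 * N 0 0 + M 0 1 * N 1 0 := by
    have := congrFun (congrFun hcomm 0) 0
    simpa [Matrix.mul_apply, Fin.sum_univ_two] using this
  have c01 : N 0 0 * M 0 1 + N 0 1 * M 1 1 = M 0 0 * N 0 1 + M 0 1 * N 1 1 := by
    have := congrFun (congrFun hcomm 0) 1
    simpa [Matrix.mul_apply, Fin.sum_univ_two] using this
  have c10 : N 1 0 * M 0 0 + N 1 1 * M 1 0 = M 1 0 * N 0 0 + M 1 1 * N 1 0 := by
    have := congrFun (congrFun hcomm 1) 0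
    simpa [Matrix.mul_apply, Fin.sum_univ_two] using this
  -- the three basic minors
  have m12 : w 1 * u 2 - w 2 * u 1 = 0 := by
    rw [hw1, hw2, hu1, hu2]
    linear_combination c00
  have m01 : 2 * (w 0 * u 1 - w 1 * u 0) = 0 := by
    have e : 2 * (w 0 * u 1 - w 1 * u 0) = (2 * w 0) * u 1 - w 1 * (2 * u 0) := by ring
    rw [e, hw0, hu0, hw1, hu1]
    linear_combination c01
  have m02 : 2 * (w 0 * u 2 - w 2 * u 0) = 0 := by
    have e : 2 * (w 0 * u 2 - w 2 * u 0) = (2 * w 0) * u 2 - w 2 * (2 * u 0) := by ring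
    rw [e, hw0, hu0, hw2, hu2]
    linear_combination -c10
  have key : ∀ a b : Fin 3, 2 * (w a * u b - w b * u a) = 0 := by
    intro a b
    fin_cases a <;> fin_cases b
    · show 2 * (w 0 * u 0 - w 0 * u 0) = 0
      ring
    · show 2 * (w 0 * u 1 - w 1 * u 0) = 0
      exact m01
    · show 2 * (w 0 * u 2 - w 2 * u 0) = 0
      exact m02
    · show 2 * (w 1 * u 0 - w 0 * u 1) = 0
      linear_combination -m01
    · show 2 * (w 1 * u 1 - w 1 * u 1) = 0
      ring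
    · show 2 * (w 1 * u 2 - w 2 * u 1) = 0
      linear_combination (2 : B) * m12
    · show 2 * (w 2 * u 0 - w 0 * u 2) = 0
      linear_combination -m02
    · show 2 * (w 2 * u 1 - w 1 * u 2) = 0
      linear_combination (-2 : B) * m12
    · show 2 * (w 2 * u 2 - w 2 * u 2) = 0
      ring
  exact key a b

end Comm

section Main

variable {V : Type*} [CommRing V] [IsDomain V] [CharZero V]

/-- **TYPE, algebra.**  In the situation of helper474's `exists_type_of_conj`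
(`tr Σ ≠ 2`), with `u`, `w` the traceless coordinates of `Σ`, `Φ`:
there is `0 < j < p^K` such that `4 Q(u) = (ζ^j - ζ^(p^K - j))²`, and all minors
`w_a u_b - w_b u_a` vanish. -/
theorem type_algebra_h419 {p q K n' : ℕ} (hp : p.Prime) (hp2 : p ≠ 2) (hK : 0 < K)
    (hq : q = p ^ K * n' + 1) (hn' : ¬ p ∣ n')
    (m : Ideal V) (hm : m ≠ ⊤) (hpm : (p : V) ∈ m)
    (Sg Φ : Matrix (Fin 2) (Fin 2) V) (hdet : Sg.det = 1) (hΦ : Φ.det ≠ 0)
    (hconj : Φ * Sg = Sg ^ q * Φ) (hSg : ∀ i j, (Sg - 1) i j ∈ m)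
    (ζ : V) (hζ : IsPrimitiveRoot ζ (p ^ K)) (hNU : Sg.trace ≠ 2)
    (u w : Fin 3 → V)
    (hu0 : 2 * u 0 = Sg 0 0 - Sg 1 1) (hu1 : u 1 = Sg 0 1) (hu2 : u 2 = Sg 1 0)
    (hw0 : 2 * w 0 = Φ 0 0 - Φ 1 1) (hw1 : w 1 = Φ 0 1) (hw2 : w 2 = Φ 1 0) :
    ∃ j : ℕ, 0 < j ∧ j < p ^ K ∧
      4 * (u 0 ^ 2 + u 1 * u 2) = (ζ ^ j - ζ ^ (p ^ K - j)) ^ 2 ∧
      ∀ a b : Fin 3, w a * u b - w b * u a = 0 := by
  obtain ⟨j, hj0, hj, _, hprod, hne, htr, hchar⟩ :=
    Fermat.Agent.S38.IA.H474.exists_type_of_conj hp hp2 hK hq hn' m hm hpm Sg Φ hdet hΦ hconj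
      hSg ζ hζ hNU
  have hz : (ζ ^ j) ^ (p ^ K) = 1 := by
    rw [← pow_mul, mul_comm, pow_mul, hζ.pow_eq_one, one_pow]
  have hz' : (ζ ^ (p ^ K - j)) ^ (p ^ K) = 1 := by
    rw [← pow_mul, mul_comm, pow_mul, hζ.pow_eq_one, one_pow]
  have hpow : Sg ^ (p ^ K) = 1 :=
    pow_eq_one_of_charpoly_h419 Sg _ _ hne (p ^ K) hz hz' hchar
  have hcomm : Φ * Sg = Sg * Φ := commute_of_conj_h419 hq Sg Φ hconj hpow
  refine ⟨j, hj0, hj, ?_, fun a b => ?_⟩
  · rw [four_mul_qform_h419 Sg u hu0 hu1 hu2, hdet, htr]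
    linear_combination (4 : V) * hprod
  · have h2 := two_mul_minor_h419 Sg Φ u w hu0 hu1 hu2 hw0 hw1 hw2 hcomm a b
    rcases mul_eq_zero.mp h2 with h | h
    · exact absurd h two_ne_zero
    · exact h

end Main

end Fermat.Agent.S38.H419
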