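/-
Row 37 HARD (Ihara avoidance), leaf GAL, item (D) "TYPE clause": Galois input.   (helper419)

`R` a Noetherian local ring, `ρ : GaloisRepAdic R` with cyclotomic determinant, `(φ, σ)` a tame
pair (helper1, `LocGenSpec`) at a place `P | q`, `q ≠ p`, `ρ` residually unramified at `P`
(`ResUnramAt`), `bas` a basis of `ρ.V`.  With `Σ = [ρ σ]`, `Φ = [ρ φ]` (matrices in `bas`):

* `det_eq_natCast_h419`, `det_inertia_h419`, `det_frobenius_h419` : `det ρ(ι) = 1` on inertia,
  `det ρ(φ) = q`;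
* `toMatrix_tame_rel_h419` : `Φ Σ = Σ^q Φ`;
* `toMatrix_sub_one_mem_h419` : `Σ ≡ 1` modulo the maximal ideal;
* `isUnipotentOnInertiaAt_of_trace_h419` : for a local homomorphism `y : R → 𝒪'` to a Noetherian
  local ring, if `y (tr ρ σ) = 2` then `ρ ⊗_y 𝒪'` is unipotent on inertia at `q` (at EVERY place
  over `q`);
* `resUnramAt_of_residual_h419` : `ResUnramAt` from the triviality of the residual
  representation on inertia.

All proofs complete.
-/
import Fermat.Agent.S38.IA.Gal.H1.LocGenAdic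
import Fermat.Agent.Lib.Cheb.H476.FrobConj
import Fermat.Agent.S30.H870.Cyclo
import Fermat.Agent.S38.IA.H474.TypePsi
import Fermat.Prelude.Def_GaloisRep_LocalConditions

set_option autoImplicit false
set_option linter.style.haveILetI false
set_option linter.unusedSectionVars false

open Polynomial IsLocalRing
open scoped TensorProduct

namespace Fermat.Agent.S38.H419

open Fermat.Agent.S56 Fermat.Agent.S38.IA.Gal

/-! ### Generalities -/

section Gen

variable {R : Type*} [CommRing R]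

/-- Krull's intersection theorem, elementwise. -/
theorem eq_zero_of_forall_mem_pow_h419 [IsLocalRing R] [IsNoetherianRing R] {x : R}
    (h : ∀ n : ℕ, x ∈ maximalIdeal R ^ n) : x = 0 := by
  have h1 : x ∈ ⨅ i : ℕ, maximalIdeal R ^ i := by
    rw [Ideal.mem_iInf]
    exact h
  rw [Ideal.iInf_pow_eq_bot_of_isLocalRing (maximalIdeal R)
    (Ideal.IsPrime.ne_top inferInstance)] at h1
  exact (Ideal.mem_bot).mp h1

variable {M : Type*} [AddCommGroup M] [Module R M] {ι : Type*}

/-- The coordinates of an element of `I • M` lie in `I`. -/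
theorem repr_mem_of_mem_smul_top_h419 (bas : Module.Basis ι R M) (I : Ideal R) {x : M}
    (hx : x ∈ I • (⊤ : Submodule R M)) (i : ι) : bas.repr x i ∈ I := by
  refine Submodule.smul_induction_on (p := fun x => bas.repr x i ∈ I) hx ?_ ?_
  · intro a ha m _
    rw [map_smul, Finsupp.smul_apply, smul_eq_mul]
    exact I.mul_mem_right _ ha
  · intro x y hx hy
    rw [map_add, Finsupp.add_apply]
    exact I.add_mem hx hy

variable [Fintype ι] [DecidableEq ι]

/-- Congruent endomorphisms have congruent matrices. -/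
theorem toMatrix_sub_mem_h419 (bas : Module.Basis ι R M) (I : Ideal R) (f g : Module.End R M)
    (h : ∀ v : M, f v - g v ∈ I • (⊤ : Submodule R M)) (i j : ι) :
    (LinearMap.toMatrix bas bas f - LinearMap.toMatrix bas bas g) i j ∈ I := by
  rw [Matrix.sub_apply, LinearMap.toMatrix_apply, LinearMap.toMatrix_apply, ← Finsupp.sub_apply,
    ← map_sub]
  exact repr_mem_of_mem_smul_top_h419 bas I (h (bas j)) i

theorem toMatrix_pow_h419 (bas : Module.Basis ι R M) (f : Module.End R M) (n : ℕ) :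
    LinearMap.toMatrix bas bas (f ^ n) = LinearMap.toMatrix bas bas f ^ n := by
  induction n with
  | zero => rw [pow_zero, pow_zero, Module.End.one_eq_id, LinearMap.toMatrix_id]
  | succ n ih => rw [pow_succ, pow_succ, LinearMap.toMatrix_mul, ih]

end Gen

/-! ### Determinants -/

section Det

variable {R : Type} [CommRing R] [IsLocalRing R] [IsNoetherianRing R]

/-- The determinant of a representation with cyclotomic determinant, at an element acting on
all `p`-power roots of unity by `μ ↦ μ ^ a`. -/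
theorem det_eq_natCast_h419 (ρ : GaloisRepAdic R) {p : ℕ} (hdet : ρ.DetIsCyclotomic p)
    (τ : GQ) (a : ℕ) (h : ∀ (n : ℕ) (μ : Qb), μ ^ p ^ n = 1 → τ μ = μ ^ a) :
    LinearMap.det (ρ.ρ τ) = (a : R) := by
  have hp := hdet.1
  have h1 : ∀ n, LinearMap.det (ρ.ρ τ) - (a : R) ∈ maximalIdeal R ^ n := by
    intro n
    have h2 := hdet.2 n τ a (h n)
    have h3 : Ideal.span {((p ^ n : ℕ) : R)} ≤ maximalIdeal R ^ n := by
      rw [Ideal.span_singleton_le_iff_mem, Nat.cast_pow]
      exact Ideal.pow_mem_pow hp n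
    exact h3 h2
  exact sub_eq_zero.mp (eq_zero_of_forall_mem_pow_h419 h1)

theorem det_inertia_h419 (ρ : GaloisRepAdic R) {p : ℕ} [Fact p.Prime]
    (hdet : ρ.DetIsCyclotomic p) {q : ℕ} (hq : q.Prime) (hqp : q ≠ p)
    {P : ValuationSubring Qb} (hP : P.LiesOverPrime q)
    {τ : GQ} (hτ : τ ∈ P.inertiaSubgroupIn ℚ) : LinearMap.det (ρ.ρ τ) = 1 := by
  have h := det_eq_natCast_h419 ρ hdet τ 1 (fun n μ hμ => by
    rw [pow_one]
    exact Fermat.Agent.S30.H870.inertia_root_eq p hq hqp P hP τ hτ hμ)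
  rwa [Nat.cast_one] at h

theorem det_frobenius_h419 (ρ : GaloisRepAdic R) {p : ℕ} [Fact p.Prime]
    (hdet : ρ.DetIsCyclotomic p) {q : ℕ} (hq : q.Prime) (hqp : q ≠ p)
    {P : ValuationSubring Qb} (hP : P.LiesOverPrime q)
    {φ : GQ} (hφ : P.IsFrobeniusAt φ q) : LinearMap.det (ρ.ρ φ) = (q : R) :=
  det_eq_natCast_h419 ρ hdet φ q (fun _ _ hμ =>
    Fermat.Agent.S30.H870.frob_root_pow_eq p hq hqp P hP φ hφ hμ)

end Det

/-! ### The tame relation and the congruence, in matrix form -/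

section Tame

variable {R : Type} [CommRing R] [IsLocalRing R] [IsNoetherianRing R]
  {p q : ℕ} {P : ValuationSubring Qb} {φ σ : GQ}

/-- **The tame relation** `Φ Σ = Σ^q Φ` for the matrices of `ρ φ`, `ρ σ`. -/
theorem toMatrix_tame_rel_h419 (ρ : GaloisRepAdic R) (bas : Module.Basis (Fin 2) R ρ.V)
    (h : IsTamePair p q P φ σ) (hp : p.Prime) (hq : q.Prime) (hpq : p ≠ q)
    (hP : P.LiesOverPrime q) (hpR : (p : R) ∈ maximalIdeal R) (hres : ResUnramAt P ρ.ρ) :
    LinearMap.toMatrix bas bas (ρ.ρ φ) * LinearMap.toMatrix bas bas (ρ.ρ σ) =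
      LinearMap.toMatrix bas bas (ρ.ρ σ) ^ q * LinearMap.toMatrix bas bas (ρ.ρ φ) := by
  have h1 := adic_rel h hp hq hpq hP hpR ρ.isAdicContinuous hres separated_of_noetherian
  have h2 : ρ.ρ φ * ρ.ρ σ = ρ.ρ σ ^ q * ρ.ρ φ := by
    rw [← h1, ← map_mul, ← map_mul]
    congr 1
    group
  rw [← LinearMap.toMatrix_mul, h2, LinearMap.toMatrix_mul, toMatrix_pow_h419]

/-- `Σ ≡ 1` modulo the maximal ideal, for `ρ` residually unramified at `P`. -/
theorem toMatrix_sub_one_mem_h419 (ρ : GaloisRepAdic R) (bas : Module.Basis (Fin 2) R ρ.V)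
    (hres : ResUnramAt P ρ.ρ) {ι : GQ} (hι : ι ∈ P.inertiaSubgroupIn ℚ) (i j : Fin 2) :
    (LinearMap.toMatrix bas bas (ρ.ρ ι) - 1) i j ∈ maximalIdeal R := by
  have h1 := toMatrix_sub_mem_h419 bas (maximalIdeal R) (ρ.ρ ι) 1 (fun v => by
    rw [Module.End.one_apply]
    exact hres ι hι v) i j
  rwa [Module.End.one_eq_id, LinearMap.toMatrix_id] at h1

end Tame

/-! ### Unipotency from the trace of the tame generator -/

section Unip

variable {R : Type} [CommRing R] [IsLocalRing R] [IsNoetherianRing R]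
  {B : Type} [CommRing B] [IsLocalRing B] [IsNoetherianRing B]
  {p q : ℕ} {P : ValuationSubring Qb} {φ σ : GQ}

omit [IsNoetherianRing R] [IsNoetherianRing B] in
theorem map_mem_pow_h419 (y : R →+* B) (hy : IsLocalHom y) (n : ℕ) {a : R}
    (ha : a ∈ maximalIdeal R ^ n) : y a ∈ maximalIdeal B ^ n := by
  have hmap : (maximalIdeal R ^ n).map y ≤ maximalIdeal B ^ n := by
    rw [Ideal.map_pow]
    exact Ideal.pow_right_mono (Ideal.map_le_iff_le_comap.mpr fun a ha =>
      Ideal.mem_comap.mpr (haveI := hy; map_nonunit y a ha)) n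
  exact hmap (Ideal.mem_map_of_mem y ha)

/-- If `y (tr ρ σ) = 2` for the tame generator `σ`, then `y (tr ρ ι) = 2` for all `ι ∈ I_P`. -/
theorem map_trace_inertia_h419 (ρ : GaloisRepAdic R) [Fact p.Prime]
    (hdet : ρ.DetIsCyclotomic p) (h : IsTamePair p q P φ σ) (hq : q.Prime) (hpq : p ≠ q)
    (hP : P.LiesOverPrime q) (hres : ResUnramAt P ρ.ρ) (y : R →+* B) (hy : IsLocalHom y)
    (htr : y (LinearMap.trace R ρ.V (ρ.ρ σ)) = 2) {ι : GQ} (hι : ι ∈ P.inertiaSubgroupIn ℚ) :
    y (LinearMap.trace R ρ.V (ρ.ρ ι)) = 2 := by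
  have hp : p.Prime := Fact.out
  let bas : Module.Basis (Fin 2) R ρ.V := Module.finBasisOfFinrankEq R ρ.V ρ.finrank_eq
  set Sg : Matrix (Fin 2) (Fin 2) R := LinearMap.toMatrix bas bas (ρ.ρ σ) with hSg
  have hdetS : Sg.det = 1 := by
    rw [hSg, LinearMap.det_toMatrix]
    exact det_inertia_h419 ρ hdet hq hpq.symm hP h.mem
  have htrS : Sg.trace = LinearMap.trace R ρ.V (ρ.ρ σ) :=
    (LinearMap.trace_eq_matrix_trace R bas (ρ.ρ σ)).symm
  -- the image of `Σ`
  have hdetY : (y.mapMatrix Sg).det = 1 := by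
    rw [← RingHom.map_det, hdetS, map_one]
  have htrace_map : ∀ M : Matrix (Fin 2) (Fin 2) R, (y.mapMatrix M).trace = y M.trace := by
    intro M
    rw [Matrix.trace_fin_two, Matrix.trace_fin_two, map_add]
    rfl
  have htrY : (1 : B) + 1 = (y.mapMatrix Sg).trace := by
    rw [htrace_map, htrS, htr]
    norm_num
  have hpowY : ∀ j : ℕ, y ((Sg ^ j).trace) = 2 := by
    intro j
    rw [← htrace_map, map_pow,
      Fermat.Agent.S38.IA.H474.trace_pow_eq (y.mapMatrix Sg) hdetY 1 1 htrY (one_mul 1) j,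
      one_pow]
    norm_num
  -- congruences
  have hcong : ∀ n : ℕ, y (LinearMap.trace R ρ.V (ρ.ρ ι)) - 2 ∈ maximalIdeal B ^ n := by
    intro n
    obtain ⟨j, hj⟩ := adic_inertia_mod h hp hq hpq hP hdet.1 ρ.isAdicContinuous hres n hι
    have h1 := toMatrix_sub_mem_h419 bas (maximalIdeal R ^ n) (ρ.ρ ι) (ρ.ρ σ ^ j) hj
    rw [toMatrix_pow_h419] at h1
    have h2 : LinearMap.trace R ρ.V (ρ.ρ ι) - (Sg ^ j).trace ∈ maximalIdeal R ^ n := by
      rw [LinearMap.trace_eq_matrix_trace R bas (ρ.ρ ι), Matrix.trace_fin_two,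
        Matrix.trace_fin_two]
      have e : LinearMap.toMatrix bas bas (ρ.ρ ι) 0 0 + LinearMap.toMatrix bas bas (ρ.ρ ι) 1 1 -
          ((Sg ^ j) 0 0 + (Sg ^ j) 1 1) =
          (LinearMap.toMatrix bas bas (ρ.ρ ι) - Sg ^ j) 0 0 +
            (LinearMap.toMatrix bas bas (ρ.ρ ι) - Sg ^ j) 1 1 := by
        rw [Matrix.sub_apply, Matrix.sub_apply]
        ring
      rw [e]
      exact Ideal.add_mem _ (h1 0 0) (h1 1 1)
    have h3 := map_mem_pow_h419 y hy n h2
    rwa [map_sub, hpowY j] at h3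
  exact sub_eq_zero.mp (eq_zero_of_forall_mem_pow_h419 hcong)

/-- **Unipotency.**  If `y (tr ρ σ) = 2` for the tame generator `σ` at ONE place `P | q`, then
the base change of `ρ` along `y` is unipotent on inertia at `q`. -/
theorem isUnipotentOnInertiaAt_of_trace_h419 (ρ : GaloisRepAdic R) [Fact p.Prime]
    (hdet : ρ.DetIsCyclotomic p) (h : IsTamePair p q P φ σ) (hq : q.Prime) (hpq : p ≠ q)
    (hP : P.LiesOverPrime q) (hres : ResUnramAt P ρ.ρ) (y : R →+* B) (hy : IsLocalHom y)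
    (htr : y (LinearMap.trace R ρ.V (ρ.ρ σ)) = 2) :
    (ρ.baseChangeAlong y hy).IsUnipotentOnInertiaAt q := by
  intro P' hP' ι' hι'
  obtain ⟨g, ι, hι, hconj⟩ :=
    Fermat.Agent.Lib.Cheb.H476.exists_conj_of_mem_inertia hq hP hP' hι'
  have hdet' : LinearMap.det (ρ.ρ ι') = 1 := det_inertia_h419 ρ hdet hq hpq.symm hP' hι'
  have htr' : y (LinearMap.trace R ρ.V (ρ.ρ ι')) = 2 := by
    have e : LinearMap.trace R ρ.V (ρ.ρ ι') = LinearMap.trace R ρ.V (ρ.ρ ι) := by
      have e0 : ρ.ρ (g * ι * g⁻¹) = ρ.ρ g * ρ.ρ ι * ρ.ρ g⁻¹ := by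
        rw [MonoidHom.map_mul, MonoidHom.map_mul]
      rw [hconj, e0, LinearMap.trace_mul_comm, ← mul_assoc, ← MonoidHom.map_mul, inv_mul_cancel,
        MonoidHom.map_one, one_mul]
    rw [e]
    exact map_trace_inertia_h419 ρ hdet h hq hpq hP hres y hy htr hι
  letI : Algebra R B := y.toAlgebra
  show LinearMap.charpoly ((ρ.ρ ι').baseChange B) = (X - 1) ^ 2
  rw [LinearMap.charpoly_baseChange]
  let bas : Module.Basis (Fin 2) R ρ.V := Module.finBasisOfFinrankEq R ρ.V ρ.finrank_eq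
  rw [← LinearMap.charpoly_toMatrix (ρ.ρ ι') bas, Matrix.charpoly_fin_two,
    ← LinearMap.trace_eq_matrix_trace R bas (ρ.ρ ι'), LinearMap.det_toMatrix, hdet']
  have halg : ∀ a : R, algebraMap R B a = y a := fun _ => rfl
  rw [Polynomial.map_add, Polynomial.map_sub, Polynomial.map_mul, Polynomial.map_pow,
    Polynomial.map_X, Polynomial.map_C, Polynomial.map_C, halg, halg, htr', map_one]
  rw [map_ofNat, map_one]
  ring

end Unip

/-! ### Residual unramifiedness -/

section Res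

theorem mem_smul_top_of_one_tmul_eq_zero_h419 {R : Type*} [CommRing R] [IsLocalRing R]
    {M : Type*} [AddCommGroup M] [Module R M] {x : M}
    (h : (1 : ResidueField R) ⊗ₜ[R] x = 0) : x ∈ maximalIdeal R • (⊤ : Submodule R M) := by
  have h2 : TensorProduct.quotTensorEquivQuotSMul M (maximalIdeal R)
      ((1 : ResidueField R) ⊗ₜ[R] x) = Submodule.Quotient.mk ((1 : R) • x) :=
    TensorProduct.quotTensorEquivQuotSMul_mk_tmul (maximalIdeal R) 1 x
  have h1 : TensorProduct.quotTensorEquivQuotSMul M (maximalIdeal R)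
      ((1 : ResidueField R) ⊗ₜ[R] x) = 0 :=
    (LinearEquiv.map_eq_zero_iff _).mpr h
  rw [h2, one_smul] at h1
  exact (Submodule.Quotient.mk_eq_zero _).mp h1

/-- `ρ` is residually unramified at `P` (helper1's `ResUnramAt`) as soon as its residual
representation is trivial on `I_P`. -/
theorem resUnramAt_of_residual_h419 {R : Type} [CommRing R] [IsLocalRing R]
    (ρ : GaloisRepAdic R) (P : ValuationSubring Qb)
    (h : ∀ ι ∈ P.inertiaSubgroupIn ℚ, ρ.residual.ρ ι = 1) : ResUnramAt P ρ.ρ := by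
  intro ι hι v
  apply mem_smul_top_of_one_tmul_eq_zero_h419
  have h1 : ρ.residual.ρ ι ((1 : ResidueField R) ⊗ₜ[R] v) = (1 : ResidueField R) ⊗ₜ[R] v := by
    rw [h ι hι]
    rfl
  have h2 : ρ.residual.ρ ι ((1 : ResidueField R) ⊗ₜ[R] v) =
      (1 : ResidueField R) ⊗ₜ[R] (ρ.ρ ι v) := by
    show (ρ.ρ ι).baseChange (ResidueField R) ((1 : ResidueField R) ⊗ₜ[R] v) = _
    rw [LinearMap.baseChange_tmul]
  rw [h2] at h1
  rw [TensorProduct.tmul_sub, h1, sub_self]

/-- The universal deformation of a residual representation unramified at `q` is residually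
unramified at every place over `q`. -/
theorem resUnramAt_of_deformation_h419 {𝒪 : Type} [CommRing 𝒪] [IsDomain 𝒪]
    [IsDiscreteValuationRing 𝒪] [IsAdicComplete (maximalIdeal 𝒪) 𝒪]
    {ρbar : ResidualGaloisRep (ResidueField 𝒪)}
    {𝒟 : ∀ ⦃A : Type⦄ [CommRing A] [IsLocalRing A] [Algebra 𝒪 A], GaloisRepAdic A → Prop}
    (DQ : GaloisRep.DeformationRingData 𝒪 ρbar 𝒟) {q : ℕ} (hunr : ρbar.IsUnramifiedAt q)
    {P : ValuationSubring Qb} (hP : P.LiesOverPrime q) : ResUnramAt P DQ.ρ.ρ := by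
  apply resUnramAt_of_residual_h419
  intro ι hι
  obtain ⟨e⟩ := DQ.residual_isEquiv
  refine LinearMap.ext fun w => e.toLinearEquiv.injective ?_
  rw [e.map_apply, Module.End.one_apply]
  letI : Algebra (ResidueField 𝒪) (ResidueField DQ.R) :=
    (IsLocalRing.ResidueField.map (algebraMap 𝒪 DQ.R)).toAlgebra
  show (ρbar.ρ ι).baseChange (ResidueField DQ.R) (e.toLinearEquiv w) = e.toLinearEquiv w
  rw [hunr P hP ι hι, LinearMap.baseChange_one]
  rfl

end Res

end Fermat.Agent.S38.H419
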