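/-
Row 37 HARD (Ihara avoidance), leaf GAL, item (D): the TYPE clause of the frozen
`Fermat.Agent.S38.IA.IAGalStatement` (`S38/IA/Spec2.lean`, trunk `origin/helper995`).  (helper419)

`typeClause_h419` : `ρ : GaloisRepAdic R` over a Noetherian local `𝒪`-algebra `R`, with
cyclotomic determinant, residually unramified at the places `Pv q` (`q ∈ Piv`, `q ≡ 1 mod p`),
`(φv q, σv q)` tame pairs at `Pv q` (helper1, `LocGenSpec.IsTamePair`), `bas` a basis of `ρ.V`,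
`γ : LocAmb 𝒪 Piv g →ₐ[𝒪] R` such that `γ(v_q)`, `γ(w_q)` are the traceless coordinates of
`ρ(σv q)`, `ρ(φv q)` in `bas`.  Then for EVERY characteristic zero discrete valuation ring `𝒪'`
over `𝒪` and every local `y : R →ₐ[𝒪] 𝒪'` such that `ρ ⊗_y 𝒪'` is not unipotent on inertia at the
pivots, `y ∘ γ` kills the type ideal of some vector of type values: VERBATIM the last clause of
`IAGalStatement`.

`typeClause_deformation_h419` : the same for `ρ = DQ.ρ`, `DQ` a `DeformationRingData` of ANY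
type `𝒟`, with `ρ̄` unramified at the pivots (`ResUnramAt` is then automatic).

All proofs complete.
-/
import Fermat.Agent.S38.IA.Spec2
import Fermat.Agent.S38.H419.TypeAlg
import Fermat.Agent.S38.H419.TypeGal

set_option autoImplicit false
set_option linter.style.haveILetI false
set_option linter.unusedSectionVars false
set_option linter.overlappingInstances false

open Polynomial IsLocalRing

namespace Fermat.Agent.S38.H419

open Fermat.Agent.S56 Fermat.Agent.S38.IA Fermat.Agent.S38.IA.Gal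

/-! ### The coefficient ring -/

section Coeff

variable {𝒪 : Type} [CommRing 𝒪] [IsDomain 𝒪] [IsDiscreteValuationRing 𝒪]

/-- `2` is invertible in a local ring of odd residue characteristic. -/
theorem exists_two_mul_eq_one_h419 {A : Type*} [CommRing A] [IsLocalRing A] {p : ℕ}
    (hp : p.Prime) (hp2 : p ≠ 2) (hpA : (p : A) ∈ maximalIdeal A) : ∃ c : A, 2 * c = 1 := by
  have h2 : IsUnit (2 : A) := by
    by_contra hnu
    have h2m : (2 : A) ∈ maximalIdeal A := (IsLocalRing.mem_maximalIdeal _).mpr hnu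
    obtain ⟨k, hk⟩ := hp.eq_two_or_odd'.resolve_left hp2
    have h1 : (1 : A) = (p : A) - 2 * (k : A) := by
      rw [hk]
      push_cast
      ring
    have : (1 : A) ∈ maximalIdeal A := by
      rw [h1]
      exact Ideal.sub_mem _ hpA (Ideal.mul_mem_right _ _ h2m)
    exact (Ideal.ne_top_iff_one _).mp (Ideal.IsPrime.ne_top inferInstance) this
  obtain ⟨u, hu⟩ := h2
  exact ⟨((u⁻¹ : Aˣ) : A), by rw [← hu, Units.mul_inv]⟩

/-- A discrete valuation ring `𝒪` with `p ∈ 𝔪` embeds into every domain of characteristic zero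
over it. -/
theorem algebraMap_injective_h419 {p : ℕ} (hp : p.Prime) (hp𝒪 : (p : 𝒪) ∈ maximalIdeal 𝒪)
    (𝒪' : Type*) [CommRing 𝒪'] [IsDomain 𝒪'] [CharZero 𝒪'] [Algebra 𝒪 𝒪'] :
    Function.Injective (algebraMap 𝒪 𝒪') := by
  rw [RingHom.injective_iff_ker_eq_bot]
  by_contra hne
  haveI : (RingHom.ker (algebraMap 𝒪 𝒪')).IsPrime := RingHom.ker_isPrime _
  have hmax : (RingHom.ker (algebraMap 𝒪 𝒪')).IsMaximal :=
    Ideal.IsPrime.isMaximal inferInstance hne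
  have heq := IsLocalRing.eq_maximalIdeal hmax
  have hpk : (p : 𝒪) ∈ RingHom.ker (algebraMap 𝒪 𝒪') := heq ▸ hp𝒪
  rw [RingHom.mem_ker, map_natCast] at hpk
  exact hp.ne_zero (Nat.cast_eq_zero.mp hpk)

end Coeff

/-! ### One pivot -/

section One

variable {𝒪 : Type} [CommRing 𝒪] [IsDomain 𝒪] [IsDiscreteValuationRing 𝒪]
  {R : Type} [CommRing R] [IsLocalRing R] [IsNoetherianRing R] [Algebra 𝒪 R]
  {𝒪' : Type} [CommRing 𝒪'] [IsDomain 𝒪'] [IsDiscreteValuationRing 𝒪'] [CharZero 𝒪']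
  [Algebra 𝒪 𝒪']

/-- **TYPE at one pivot.** -/
theorem exists_typeValue_h419 {p : ℕ} [Fact p.Prime] (hp2 : p ≠ 2)
    (hp𝒪 : (p : 𝒪) ∈ maximalIdeal 𝒪)
    (ρ : GaloisRepAdic R) (hdet : ρ.DetIsCyclotomic p)
    {q : ℕ} (hq : q.Prime) (hpq1 : p ∣ q - 1)
    (hroots : ∀ m : ℕ, p ^ m ∣ q - 1 → ∃ ζ : 𝒪, IsPrimitiveRoot ζ (p ^ m))
    (bas : Module.Basis (Fin 2) R ρ.V)
    {P : ValuationSubring Qb} {φ σ : GQ} (hP : P.LiesOverPrime q)
    (htame : IsTamePair p q P φ σ) (hres : ResUnramAt P ρ.ρ)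
    (u w : Fin 3 → R) (hu : IsTracelessCoords bas (ρ.ρ σ) u)
    (hw : IsTracelessCoords bas (ρ.ρ φ) w)
    (y : R →ₐ[𝒪] 𝒪') (hy : IsLocalHom (y : R →+* 𝒪'))
    (hNU : ¬ (ρ.baseChangeAlong (y : R →+* 𝒪') hy).IsUnipotentOnInertiaAt q) :
    ∃ δ : 𝒪, IsTypeValue p q δ ∧
      y (u 0) ^ 2 + y (u 1) * y (u 2) = algebraMap 𝒪 𝒪' δ ^ 2 ∧
      ∀ a b : Fin 3, y (w a) * y (u b) - y (w b) * y (u a) = 0 := by
  have hp : p.Prime := Fact.out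
  have hq2 := hq.two_le
  have hq1 : q - 1 ≠ 0 := by omega
  have hpq : p ≠ q := by
    rintro rfl
    have := Nat.le_of_dvd (by omega) hpq1
    omega
  obtain ⟨K, n', hn', hKn⟩ := Nat.exists_eq_pow_mul_and_not_dvd hq1 p hp.ne_one
  have hK : 0 < K := by
    rcases Nat.eq_zero_or_pos K with h0 | h0
    · exfalso
      rw [h0, pow_zero, one_mul] at hKn
      rw [hKn] at hpq1
      exact hn' hpq1
    · exact h0
  have hqeq : q = p ^ K * n' + 1 := by omega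
  obtain ⟨ζ, hζ⟩ := hroots K ⟨n', hKn⟩
  have hinj := algebraMap_injective_h419 hp hp𝒪 𝒪'
  have hζ' : IsPrimitiveRoot (algebraMap 𝒪 𝒪' ζ) (p ^ K) := hζ.map_of_injective hinj
  -- the matrices
  let yR : R →+* 𝒪' := (y : R →+* 𝒪')
  obtain ⟨hu0, hu1, hu2⟩ := hu
  obtain ⟨hw0, hw1, hw2⟩ := hw
  obtain ⟨MS, hMS⟩ : ∃ M : Matrix (Fin 2) (Fin 2) R, M = LinearMap.toMatrix bas bas (ρ.ρ σ) :=
    ⟨_, rfl⟩
  obtain ⟨MΦ, hMΦ⟩ : ∃ M : Matrix (Fin 2) (Fin 2) R, M = LinearMap.toMatrix bas bas (ρ.ρ φ) :=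
    ⟨_, rfl⟩
  rw [← hMS] at hu0 hu1 hu2
  rw [← hMΦ] at hw0 hw1 hw2
  have hentry : ∀ (M : Matrix (Fin 2) (Fin 2) R) (i j : Fin 2),
      (yR.mapMatrix M) i j = y (M i j) := fun M i j => rfl
  have hdetS : (yR.mapMatrix MS).det = 1 := by
    rw [← RingHom.map_det, hMS, LinearMap.det_toMatrix,
      det_inertia_h419 ρ hdet hq hpq.symm hP htame.mem, map_one]
  have hdetΦ : (yR.mapMatrix MΦ).det ≠ 0 := by
    rw [← RingHom.map_det, hMΦ, LinearMap.det_toMatrix,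
      det_frobenius_h419 ρ hdet hq hpq.symm hP htame.frob, map_natCast]
    exact Nat.cast_ne_zero.mpr hq.ne_zero
  have hconj : yR.mapMatrix MΦ * yR.mapMatrix MS = yR.mapMatrix MS ^ q * yR.mapMatrix MΦ := by
    have h0 := toMatrix_tame_rel_h419 ρ bas htame hp hq hpq hP hdet.1 hres
    rw [← hMS, ← hMΦ] at h0
    have h1 := congrArg yR.mapMatrix h0
    rwa [RingHom.map_mul, RingHom.map_mul, RingHom.map_pow] at h1
  have hSg : ∀ i j, (yR.mapMatrix MS - 1) i j ∈ maximalIdeal 𝒪' := by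
    intro i j
    have h1 := toMatrix_sub_one_mem_h419 ρ bas hres htame.mem i j
    rw [← hMS] at h1
    have h2 : (yR.mapMatrix MS - 1) i j = yR ((MS - 1) i j) := by
      have e : yR.mapMatrix MS - 1 = yR.mapMatrix (MS - 1) := by
        rw [map_sub, map_one]
      rw [e]
      rfl
    rw [h2]
    have h3 := map_mem_pow_h419 yR hy 1 (by rw [pow_one]; exact h1)
    rwa [pow_one] at h3
  have hp𝒪' : ((p : ℕ) : 𝒪') ∈ maximalIdeal 𝒪' := by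
    have h3 := map_mem_pow_h419 yR hy 1 (by rw [pow_one]; exact hdet.1)
    rwa [pow_one, map_natCast] at h3
  have hNUtr : (yR.mapMatrix MS).trace ≠ 2 := by
    intro htr
    apply hNU
    refine isUnipotentOnInertiaAt_of_trace_h419 ρ hdet htame hq hpq hP hres yR hy ?_
    rw [LinearMap.trace_eq_matrix_trace R bas (ρ.ρ σ), ← hMS, ← htr, Matrix.trace_fin_two,
      Matrix.trace_fin_two, map_add]
    rfl
  -- coordinates
  have hyu0 : 2 * y (u 0) = (yR.mapMatrix MS) 0 0 - (yR.mapMatrix MS) 1 1 := by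
    rw [hentry, hentry, ← map_sub, ← hu0, map_mul, map_ofNat]
  have hyu1 : y (u 1) = (yR.mapMatrix MS) 0 1 := by rw [hentry, ← hu1]
  have hyu2 : y (u 2) = (yR.mapMatrix MS) 1 0 := by rw [hentry, ← hu2]
  have hyw0 : 2 * y (w 0) = (yR.mapMatrix MΦ) 0 0 - (yR.mapMatrix MΦ) 1 1 := by
    rw [hentry, hentry, ← map_sub, ← hw0, map_mul, map_ofNat]
  have hyw1 : y (w 1) = (yR.mapMatrix MΦ) 0 1 := by rw [hentry, ← hw1]
  have hyw2 : y (w 2) = (yR.mapMatrix MΦ) 1 0 := by rw [hentry, ← hw2]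
  obtain ⟨j, hj0, hj, hQ, hmin⟩ := type_algebra_h419 hp hp2 hK hqeq hn' (maximalIdeal 𝒪')
    (Ideal.IsPrime.ne_top inferInstance) hp𝒪' (yR.mapMatrix MS) (yR.mapMatrix MΦ) hdetS hdetΦ
    hconj hSg (algebraMap 𝒪 𝒪' ζ) hζ' hNUtr (fun i => y (u i)) (fun i => y (w i))
    hyu0 hyu1 hyu2 hyw0 hyw1 hyw2
  -- the type value
  obtain ⟨c, hc⟩ := exists_two_mul_eq_one_h419 (A := 𝒪) hp hp2 hp𝒪
  have hprod : ζ ^ (p ^ K - j) * ζ ^ j = 1 := by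
    rw [← pow_add, Nat.sub_add_cancel hj.le, hζ.pow_eq_one]
  refine ⟨c * (ζ ^ j - ζ ^ (p ^ K - j)), ⟨ζ ^ j, ?_, ⟨K, ?_⟩, ?_, ?_⟩, ?_, hmin⟩
  · exact hζ.pow_ne_one_of_pos_of_lt hj0.ne' hj
  · rw [← pow_mul, mul_comm, pow_mul, hζ.pow_eq_one, one_pow]
  · rw [hKn, ← pow_mul, mul_comm j, mul_assoc, pow_mul, hζ.pow_eq_one, one_pow]
  · linear_combination (ζ ^ j - ζ ^ (p ^ K - j)) * ζ ^ j * hc - hprod
  · have h4 : (4 : 𝒪') ≠ 0 := by norm_num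
    apply mul_left_cancel₀ h4
    have hc' : 2 * algebraMap 𝒪 𝒪' c = 1 := by
      rw [← map_ofNat (algebraMap 𝒪 𝒪') 2, ← map_mul, hc, map_one]
    have hQ' : 4 * (y (u 0) ^ 2 + y (u 1) * y (u 2)) =
        (algebraMap 𝒪 𝒪' ζ ^ j - algebraMap 𝒪 𝒪' ζ ^ (p ^ K - j)) ^ 2 := hQ
    rw [hQ', map_mul, map_sub, map_pow, map_pow]
    linear_combination (-(algebraMap 𝒪 𝒪' ζ ^ j - algebraMap 𝒪 𝒪' ζ ^ (p ^ K - j)) ^ 2) *
      (2 * algebraMap 𝒪 𝒪' c + 1) * hc'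

end One

/-! ### The TYPE clause -/

section Clause

variable {𝒪 : Type} [CommRing 𝒪] [IsDomain 𝒪] [IsDiscreteValuationRing 𝒪]
  {R : Type} [CommRing R] [IsLocalRing R] [IsNoetherianRing R] [Algebra 𝒪 R]

/-- **The TYPE clause of `IAGalStatement`** (verbatim conclusion), for any representation `ρ`
over a Noetherian local `𝒪`-algebra `R` with cyclotomic determinant which is residually
unramified at the places `Pv q`, and tame pairs `(φv q, σv q)` at `Pv q`. -/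
theorem typeClause_h419 (p : ℕ) [Fact p.Prime] (hp2 : p ≠ 2)
    (hp𝒪 : (p : 𝒪) ∈ maximalIdeal 𝒪)
    (ρ : GaloisRepAdic R) (hdet : ρ.DetIsCyclotomic p)
    (Piv : Finset ℕ) (hPiv : ∀ q ∈ Piv, q.Prime ∧ p ∣ q - 1)
    (hroots : ∀ q ∈ Piv, ∀ m : ℕ, p ^ m ∣ q - 1 → ∃ ζ : 𝒪, IsPrimitiveRoot ζ (p ^ m))
    (g : ℕ) (bas : Module.Basis (Fin 2) R ρ.V)
    (Pv : Piv → ValuationSubring (AlgebraicClosure ℚ))
    (φv σv : Piv → (AlgebraicClosure ℚ ≃ₐ[ℚ] AlgebraicClosure ℚ))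
    (hPv : ∀ q : Piv, (Pv q).LiesOverPrime (q : ℕ))
    (htame : ∀ q : Piv, IsTamePair p (q : ℕ) (Pv q) (φv q) (σv q))
    (hres : ∀ q : Piv, ResUnramAt (Pv q) ρ.ρ)
    (γ : LocAmb 𝒪 Piv g →ₐ[𝒪] R)
    (hv : ∀ q : Piv, IsTracelessCoords bas (ρ.ρ (σv q)) (fun j => γ (vVar 𝒪 g q j)))
    (hw : ∀ q : Piv, IsTracelessCoords bas (ρ.ρ (φv q)) (fun j => γ (wVar 𝒪 g q j)))
    (𝒪' : Type) [CommRing 𝒪'] [IsDomain 𝒪'] [IsDiscreteValuationRing 𝒪'] [CharZero 𝒪']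
    [Algebra 𝒪 𝒪'] (y : R →ₐ[𝒪] 𝒪') (hy : IsLocalHom (y : R →+* 𝒪'))
    (hNU : ∀ q ∈ Piv, ¬ (ρ.baseChangeAlong (y : R →+* 𝒪') hy).IsUnipotentOnInertiaAt q) :
    ∃ δ : Piv → 𝒪, (∀ q : Piv, IsTypeValue p (q : ℕ) (δ q)) ∧
      ∀ a ∈ typeIdeal 𝒪 g δ, y (γ a) = 0 := by
  have key : ∀ q : Piv, ∃ δ : 𝒪, IsTypeValue p (q : ℕ) δ ∧
      y (γ (vVar 𝒪 g q 0)) ^ 2 + y (γ (vVar 𝒪 g q 1)) * y (γ (vVar 𝒪 g q 2)) =
        algebraMap 𝒪 𝒪' δ ^ 2 ∧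
      ∀ a b : Fin 3, y (γ (wVar 𝒪 g q a)) * y (γ (vVar 𝒪 g q b)) -
        y (γ (wVar 𝒪 g q b)) * y (γ (vVar 𝒪 g q a)) = 0 := fun q =>
    exists_typeValue_h419 hp2 hp𝒪 ρ hdet (hPiv q q.2).1 (hPiv q q.2).2 (hroots q q.2) bas
      (hPv q) (htame q) (hres q) (fun j => γ (vVar 𝒪 g q j)) (fun j => γ (wVar 𝒪 g q j))
      (hv q) (hw q) y hy (hNU q q.2)
  choose δ hδ using key
  refine ⟨δ, fun q => (hδ q).1, ?_⟩
  have hC : ∀ c : 𝒪, y (γ (MvPowerSeries.C c)) = algebraMap 𝒪 𝒪' c := by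
    intro c
    have e : (MvPowerSeries.C c : LocAmb 𝒪 Piv g) = algebraMap 𝒪 (LocAmb 𝒪 Piv g) c := by
      rw [MvPowerSeries.algebraMap_apply]
      rfl
    rw [e, AlgHom.commutes, AlgHom.commutes]
  have hle : typeIdeal 𝒪 g δ ≤
      RingHom.ker ((y : R →+* 𝒪').comp (γ : LocAmb 𝒪 Piv g →+* R)) := by
    unfold typeIdeal
    rw [Ideal.span_le]
    rintro a (⟨q, rfl⟩ | ⟨q, i, j, rfl⟩)
    · show (y : R →+* 𝒪') ((γ : LocAmb 𝒪 Piv g →+* R) (qV 𝒪 g q - MvPowerSeries.C (δ q) ^ 2)) = 0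
      show y (γ (qV 𝒪 g q - MvPowerSeries.C (δ q) ^ 2)) = 0
      unfold qV
      rw [map_sub, map_sub, map_pow, map_pow, hC, map_add, map_add, map_mul, map_mul, map_pow,
        map_pow, (hδ q).2.1, sub_self]
    · show y (γ (minor 𝒪 g q i j)) = 0
      unfold minor
      rw [map_sub, map_sub, map_mul, map_mul, map_mul, map_mul]
      exact (hδ q).2.2 i j
  intro a ha
  exact hle ha

/-- **The TYPE clause for a universal deformation** `DQ` of any type `𝒟` (with cyclotomic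
determinant), `ρ̄` unramified at the pivots. -/
theorem typeClause_deformation_h419 [IsAdicComplete (maximalIdeal 𝒪) 𝒪]
    (p : ℕ) [Fact p.Prime] (hp2 : p ≠ 2) (hp𝒪 : (p : 𝒪) ∈ maximalIdeal 𝒪)
    {ρbar : ResidualGaloisRep (ResidueField 𝒪)}
    {𝒟 : ∀ ⦃A : Type⦄ [CommRing A] [IsLocalRing A] [Algebra 𝒪 A], GaloisRepAdic A → Prop}
    (DQ : GaloisRep.DeformationRingData 𝒪 ρbar 𝒟) (hdet : DQ.ρ.DetIsCyclotomic p)
    (Piv : Finset ℕ) (hPiv : ∀ q ∈ Piv, q.Prime ∧ p ∣ q - 1)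
    (hunr : ∀ q ∈ Piv, ρbar.IsUnramifiedAt q)
    (hroots : ∀ q ∈ Piv, ∀ m : ℕ, p ^ m ∣ q - 1 → ∃ ζ : 𝒪, IsPrimitiveRoot ζ (p ^ m))
    (g : ℕ) (bas : Module.Basis (Fin 2) DQ.R DQ.ρ.V)
    (Pv : Piv → ValuationSubring (AlgebraicClosure ℚ))
    (φv σv : Piv → (AlgebraicClosure ℚ ≃ₐ[ℚ] AlgebraicClosure ℚ))
    (hPv : ∀ q : Piv, (Pv q).LiesOverPrime (q : ℕ))
    (htame : ∀ q : Piv, IsTamePair p (q : ℕ) (Pv q) (φv q) (σv q))
    (γ : LocAmb 𝒪 Piv g →ₐ[𝒪] DQ.R)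
    (hv : ∀ q : Piv, IsTracelessCoords bas (DQ.ρ.ρ (σv q)) (fun j => γ (vVar 𝒪 g q j)))
    (hw : ∀ q : Piv, IsTracelessCoords bas (DQ.ρ.ρ (φv q)) (fun j => γ (wVar 𝒪 g q j))) :
    ∀ (𝒪' : Type) [CommRing 𝒪'] [IsDomain 𝒪'] [IsDiscreteValuationRing 𝒪'] [CharZero 𝒪']
      [Algebra 𝒪 𝒪'] (y : DQ.R →ₐ[𝒪] 𝒪') (hy : IsLocalHom (y : DQ.R →+* 𝒪')),
      (∀ q ∈ Piv,
        ¬ (DQ.ρ.baseChangeAlong (y : DQ.R →+* 𝒪') hy).IsUnipotentOnInertiaAt q) →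
      ∃ δ : Piv → 𝒪, (∀ q : Piv, IsTypeValue p (q : ℕ) (δ q)) ∧
        ∀ a ∈ typeIdeal 𝒪 g δ, y (γ a) = 0 := by
  intro 𝒪' _ _ _ _ _ y hy hNU
  exact typeClause_h419 p hp2 hp𝒪 DQ.ρ hdet Piv hPiv hroots g bas Pv φv σv hPv htame
    (fun q => resUnramAt_of_deformation_h419 DQ (hunr q q.2) (hPv q)) γ hv hw 𝒪' y hy hNU

/-- The determinant clauses of `IAGalStatement`: `det ρ(σ_q) = 1`, `det ρ(φ_q) = q`. -/
theorem det_clause_h419 (p : ℕ) [Fact p.Prime] (ρ : GaloisRepAdic R)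
    (hdet : ρ.DetIsCyclotomic p)
    (Piv : Finset ℕ) (hPiv : ∀ q ∈ Piv, q.Prime ∧ p ∣ q - 1)
    (Pv : Piv → ValuationSubring (AlgebraicClosure ℚ))
    (φv σv : Piv → (AlgebraicClosure ℚ ≃ₐ[ℚ] AlgebraicClosure ℚ))
    (hPv : ∀ q : Piv, (Pv q).LiesOverPrime (q : ℕ))
    (hφ : ∀ q : Piv, (Pv q).IsFrobeniusAt (φv q) (q : ℕ))
    (hσ : ∀ q : Piv, σv q ∈ (Pv q).inertiaSubgroupIn ℚ) :
    (∀ q : Piv, LinearMap.det (ρ.ρ (φv q)) = ((q : ℕ) : R)) ∧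
      ∀ q : Piv, LinearMap.det (ρ.ρ (σv q)) = 1 := by
  have hqp : ∀ q : Piv, (q : ℕ) ≠ p := by
    intro q h
    have h1 := (hPiv q q.2).2
    have h2 := (hPiv q q.2).1.two_le
    rw [h] at h1 h2
    have := Nat.le_of_dvd (by omega) h1
    omega
  exact ⟨fun q => det_frobenius_h419 ρ hdet (hPiv q q.2).1 (hqp q) (hPv q) (hφ q),
    fun q => det_inertia_h419 ρ hdet (hPiv q q.2).1 (hqp q) (hPv q) (hσ q)⟩

end Clause

/-! ### In the vocabulary of `IAGalStatement` -/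

section IAGal

open Fermat.Agent.S59.Arch

variable (p : ℕ) [Fact p.Prime]
  (𝒪 : Type) [CommRing 𝒪] [IsDomain 𝒪] [IsDiscreteValuationRing 𝒪]
  [IsAdicComplete (maximalIdeal 𝒪) 𝒪]
  (ρbar : ResidualGaloisRep (ResidueField 𝒪)) (Smin : Finset ℕ)

/-- The pivots are primes `q ≡ 1 mod p` (so `q ≠ p`) at which `ρ̄` is unramified. -/
theorem pivot_facts_h419 (h : ResidualHyp p 𝒪 ρbar Smin) (Piv : Finset ℕ)
    (hPiv : IsPivotSet p ρbar Smin Piv) :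
    (∀ q ∈ Piv, q.Prime ∧ p ∣ q - 1) ∧ (∀ q ∈ Piv, q ≠ p) ∧
      ∀ q ∈ Piv, ρbar.IsUnramifiedAt q := by
  have hqp : ∀ q ∈ Piv, q ≠ p := by
    intro q hq hqp
    exact (hPiv q hq).2.1 (hqp ▸ h.hpSmin)
  refine ⟨fun q hq => ⟨(hPiv q hq).1, (hPiv q hq).2.2.1⟩, hqp, fun q hq => ?_⟩
  by_contra hcon
  exact (hPiv q hq).2.1 ((h.hmin q (hPiv q hq).1 (hqp q hq)).mpr hcon)

/-- **The TYPE clause of `IAGalStatement`, in its vocabulary.**  Under the standing hypotheses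
of `IAGalStatement`, for a universal deformation ring `DQ` of type `sigmaCond 𝒪 p t Smin Sig`
(any `t`, any `Sig`), any basis `bas`, tame pairs `(φv q, σv q)` at places `Pv q | q`
(`q ∈ Piv`) and any `γ` computing the traceless coordinates of `ρ(σv q)`, `ρ(φv q)`:
the last clause of `IAGalStatement` holds. -/
theorem typeClause_iaGal_h419 (h : ResidualHyp p 𝒪 ρbar Smin) (Piv : Finset ℕ)
    (hPiv : IsPivotSet p ρbar Smin Piv)
    (hroots : ∀ q ∈ Piv, ∀ m : ℕ, p ^ m ∣ q - 1 → ∃ ζ : 𝒪, IsPrimitiveRoot ζ (p ^ m))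
    (t : PType) (Sig : Finset ℕ) (g : ℕ)
    (DQ : GaloisRep.DeformationRingData 𝒪 ρbar (sigmaCond 𝒪 p t Smin Sig))
    (bas : Module.Basis (Fin 2) DQ.R DQ.ρ.V)
    (Pv : Piv → ValuationSubring (AlgebraicClosure ℚ))
    (φv σv : Piv → (AlgebraicClosure ℚ ≃ₐ[ℚ] AlgebraicClosure ℚ))
    (hPv : ∀ q : Piv, (Pv q).LiesOverPrime (q : ℕ))
    (htame : ∀ q : Piv, IsTamePair p (q : ℕ) (Pv q) (φv q) (σv q))
    (γ : LocAmb 𝒪 Piv g →ₐ[𝒪] DQ.R)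
    (hv : ∀ q : Piv, IsTracelessCoords bas (DQ.ρ.ρ (σv q)) (fun j => γ (vVar 𝒪 g q j)))
    (hw : ∀ q : Piv, IsTracelessCoords bas (DQ.ρ.ρ (φv q)) (fun j => γ (wVar 𝒪 g q j))) :
    ∀ (𝒪' : Type) [CommRing 𝒪'] [IsDomain 𝒪'] [IsDiscreteValuationRing 𝒪'] [CharZero 𝒪']
      [Algebra 𝒪 𝒪'] (y : DQ.R →ₐ[𝒪] 𝒪') (hy : IsLocalHom (y : DQ.R →+* 𝒪')),
      (∀ q ∈ Piv,
        ¬ (DQ.ρ.baseChangeAlong (y : DQ.R →+* 𝒪') hy).IsUnipotentOnInertiaAt q) →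
      ∃ δ : Piv → 𝒪, (∀ q : Piv, IsTypeValue p (q : ℕ) (δ q)) ∧
        ∀ a ∈ typeIdeal 𝒪 g δ, y (γ a) = 0 := by
  obtain ⟨h1, _, h3⟩ := pivot_facts_h419 p 𝒪 ρbar Smin h Piv hPiv
  have hdet : DQ.ρ.DetIsCyclotomic p := by
    have := DQ.isOfType.1
    cases t <;> exact this.1
  exact typeClause_deformation_h419 p h.hp2 h.hp𝒪 DQ hdet Piv h1 h3 hroots g bas Pv φv σv hPv
    htame γ hv hw

/-- **The determinant clause of `IAGalStatement`, in its vocabulary** (and `det ρ(σ_q) = 1`). -/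
theorem det_clause_iaGal_h419 (h : ResidualHyp p 𝒪 ρbar Smin) (Piv : Finset ℕ)
    (hPiv : IsPivotSet p ρbar Smin Piv) (t : PType) (Sig : Finset ℕ)
    (DQ : GaloisRep.DeformationRingData 𝒪 ρbar (sigmaCond 𝒪 p t Smin Sig))
    (Pv : Piv → ValuationSubring (AlgebraicClosure ℚ))
    (φv σv : Piv → (AlgebraicClosure ℚ ≃ₐ[ℚ] AlgebraicClosure ℚ))
    (hPv : ∀ q : Piv, (Pv q).LiesOverPrime (q : ℕ))
    (hφ : ∀ q : Piv, (Pv q).IsFrobeniusAt (φv q) (q : ℕ))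
    (hσ : ∀ q : Piv, σv q ∈ (Pv q).inertiaSubgroupIn ℚ) :
    (∀ q : Piv, LinearMap.det (DQ.ρ.ρ (φv q)) = ((q : ℕ) : DQ.R)) ∧
      ∀ q : Piv, LinearMap.det (DQ.ρ.ρ (σv q)) = 1 := by
  obtain ⟨h1, _, _⟩ := pivot_facts_h419 p 𝒪 ρbar Smin h Piv hPiv
  have hdet : DQ.ρ.DetIsCyclotomic p := by
    have := DQ.isOfType.1
    cases t <;> exact this.1
  exact det_clause_h419 p DQ.ρ hdet Piv h1 Pv φv σv hPv hφ hσ

end IAGal

end Fermat.Agent.S38.H419
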